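import Mathlib

/-!
# A valuative integrality criterion for "swap-symmetric" algebraic relations

`K` a field, `F / K` a field, `u y : F`, `w` a ring automorphism of `F` fixing `K` and
exchanging `u` and `y`.  If `y` is a root of `Y ^ n + ∑_{k < n} c_k Y ^ k` where the
`c_k = A_k(u) / B_k(u)` are rational functions of `u` with
`deg A_0 = deg B_0 + n` and `deg A_k < deg B_k + n` for `1 ≤ k < n`, then `y` is integral
over `K[u]` (and `u` is integral over `K[y]`).

The proof is the valuative criterion: every valuation subring of `F` containing `K` and `y`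
contains `u` (otherwise the constant term dominates the relation), then transport along `w`.
-/

namespace Fermat.Agent.S36.ModEqGen

open Polynomial

section Val

variable {K F : Type*} [Field K] [Field F] [Algebra K F]

/-- In a valuation subring containing the constants, nonzero constants have valuation one. -/
lemma valuation_algebraMap_eq_one (V : ValuationSubring F)
    (hK : ∀ k : K, algebraMap K F k ∈ V) {a : K} (ha : a ≠ 0) :
    V.valuation (algebraMap K F a) = 1 := by
  have h1 : V.valuation (algebraMap K F a) ≤ 1 := (V.valuation_le_one_iff _).2 (hK a)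
  have h2 : V.valuation (algebraMap K F a⁻¹) ≤ 1 := (V.valuation_le_one_iff _).2 (hK a⁻¹)
  have hne : V.valuation (algebraMap K F a) ≠ 0 :=
    (Valuation.ne_zero_iff _).2 (by simpa using ha)
  rw [map_inv₀, map_inv₀] at h2
  exact le_antisymm h1 ((inv_le_one₀ (zero_lt_iff.2 hne)).1 h2)

/-- If `u ∉ V`, then `P(u)` has the valuation of `u ^ deg P`. -/
lemma valuation_aeval_eq_pow (V : ValuationSubring F)
    (hK : ∀ k : K, algebraMap K F k ∈ V) {u : F} (hu : u ∉ V) {P : K[X]} (hP : P ≠ 0) :
    V.valuation (aeval u P) = V.valuation u ^ P.natDegree := by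
  have hu1 : 1 < V.valuation u := by
    rw [← not_le, V.valuation_le_one_iff]; exact hu
  have hu0 : V.valuation u ≠ 0 := (lt_trans zero_lt_one hu1).ne'
  have hlead : V.valuation (P.coeff P.natDegree • u ^ P.natDegree)
      = V.valuation u ^ P.natDegree := by
    rw [Algebra.smul_def, map_mul,
      valuation_algebraMap_eq_one V hK (by simpa using hP), one_mul, map_pow]
  rw [aeval_eq_sum_range, Finset.sum_range_succ, Valuation.map_add_eq_of_lt_right, hlead]
  rw [hlead]
  apply Valuation.map_sum_lt _ (pow_ne_zero _ hu0)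
  intro i hi
  rw [Algebra.smul_def, map_mul, map_pow]
  by_cases hc : P.coeff i = 0
  · rw [hc, map_zero, map_zero, zero_mul]
    exact pow_pos (zero_lt_iff.2 hu0) _
  · rw [valuation_algebraMap_eq_one V hK hc, one_mul]
    exact pow_lt_pow_right₀ hu1 (Finset.mem_range.1 hi)

/-- The key step: a valuation subring containing `K` and `y` contains `u`. -/
lemma mem_of_relation (V : ValuationSubring F) (hK : ∀ k : K, algebraMap K F k ∈ V)
    {u y : F} (hy : y ∈ V) (n : ℕ) (hn : 0 < n) (c : ℕ → F)
    (hχ : y ^ n + ∑ k ∈ Finset.range n, c k * y ^ k = 0)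
    (A B : ℕ → K[X]) (hB : ∀ k, k < n → B k ≠ 0)
    (hAB : ∀ k, k < n → c k * aeval u (B k) = aeval u (A k))
    (hA0 : A 0 ≠ 0) (hd0 : (A 0).natDegree = (B 0).natDegree + n)
    (hk : ∀ k, 0 < k → k < n → A k = 0 ∨ (A k).natDegree < (B k).natDegree + n) :
    u ∈ V := by
  by_contra hu
  have hu1 : 1 < V.valuation u := by
    rw [← not_le, V.valuation_le_one_iff]; exact hu
  have hu0 : V.valuation u ≠ 0 := (lt_trans zero_lt_one hu1).ne'
  have hy1 : V.valuation y ≤ 1 := (V.valuation_le_one_iff _).2 hy
  have hBne : ∀ k, k < n → aeval u (B k) ≠ 0 := by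
    intro k hkn h
    have := valuation_aeval_eq_pow V hK hu (hB k hkn)
    rw [h, map_zero] at this
    exact pow_ne_zero _ hu0 this.symm
  have h0 : V.valuation (c 0) = V.valuation u ^ n := by
    have := congrArg V.valuation (hAB 0 hn)
    rw [map_mul, valuation_aeval_eq_pow V hK hu (hB 0 hn),
      valuation_aeval_eq_pow V hK hu hA0, hd0, pow_add] at this
    exact mul_right_cancel₀ (pow_ne_zero _ hu0) (by rw [this, mul_comm])
  have hlt : ∀ k, 0 < k → k < n → V.valuation (c k * y ^ k) < V.valuation u ^ n := by
    intro k hk0 hkn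
    have hck : V.valuation (c k) < V.valuation u ^ n := by
      by_cases hA : A k = 0
      · have := hAB k hkn
        rw [hA, map_zero, mul_eq_zero] at this
        rw [this.resolve_right (hBne k hkn), map_zero]
        exact pow_pos (zero_lt_iff.2 hu0) n
      · have hdeg := (hk k hk0 hkn).resolve_left hA
        have := congrArg V.valuation (hAB k hkn)
        rw [map_mul, valuation_aeval_eq_pow V hK hu (hB k hkn),
          valuation_aeval_eq_pow V hK hu hA] at this
        have h2 : V.valuation (c k) * V.valuation u ^ (B k).natDegree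
            < V.valuation u ^ n * V.valuation u ^ (B k).natDegree := by
          rw [this, ← pow_add, add_comm]
          exact pow_lt_pow_right₀ hu1 hdeg
        exact lt_of_mul_lt_mul_right h2 zero_le
    calc V.valuation (c k * y ^ k) = V.valuation (c k) * V.valuation y ^ k := by
          rw [map_mul, map_pow]
      _ ≤ V.valuation (c k) * 1 := by
          gcongr
          exact pow_le_one₀ zero_le hy1
      _ = V.valuation (c k) := mul_one _
      _ < _ := hck
  have hsum : c 0 = -(y ^ n + ∑ k ∈ Finset.Ico 1 n, c k * y ^ k) := by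
    rw [Finset.range_eq_Ico, Finset.sum_eq_sum_Ico_succ_bot hn] at hχ
    simp only [pow_zero, mul_one, zero_add] at hχ
    linear_combination hχ
  have hlt0 : V.valuation (c 0) < V.valuation u ^ n := by
    rw [hsum, Valuation.map_neg]
    refine lt_of_le_of_lt (V.valuation.map_add _ _) (max_lt ?_ ?_)
    · rw [map_pow]
      calc V.valuation y ^ n ≤ 1 := pow_le_one₀ zero_le hy1
        _ < V.valuation u ^ n := one_lt_pow₀ hu1 hn.ne'
    · apply Valuation.map_sum_lt _ (pow_ne_zero _ hu0)
      intro k hk
      rw [Finset.mem_Ico] at hk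
      exact hlt k hk.1 hk.2
  exact absurd h0 hlt0.ne

/-- Membership in every valuation subring containing `K` and `u` gives integrality
over `K[u]`. -/
lemma isIntegral_adjoin_of_forall_valuationSubring {u y : F}
    (h : ∀ V : ValuationSubring F, (∀ k : K, algebraMap K F k ∈ V) → u ∈ V → y ∈ V) :
    IsIntegral (Algebra.adjoin K {u}) y := by
  have hmem : y ∈ (integralClosure
      (Subring.closure (Set.range (algebraMap K F) ∪ {u})) F).toSubring := by
    rw [← iInf_valuationSubring_superset, Subring.mem_iInf]
    rintro ⟨V, hV⟩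
    exact h V (fun k => hV (Or.inl ⟨k, rfl⟩)) (hV (Or.inr rfl))
  obtain ⟨p, hp, hpy⟩ : IsIntegral (Subring.closure (Set.range (algebraMap K F) ∪ {u})) y := hmem
  have hle' : ∀ x : F, x ∈ Subring.closure (Set.range (algebraMap K F) ∪ {u}) →
      x ∈ Algebra.adjoin K {u} := by
    intro x hx
    rw [← Algebra.adjoin_eq_ring_closure] at hx
    exact hx
  have hle : ∀ x : Subring.closure (Set.range (algebraMap K F) ∪ {u}),
      (Subring.subtype _ x : F) ∈ Algebra.adjoin K {u} := fun x => hle' _ x.2
  refine ⟨p.map (RingHom.codRestrict (Subring.subtype _) (Algebra.adjoin K {u}) hle),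
    hp.map _, ?_⟩
  rw [eval₂_map]
  exact hpy

/-- **Valuative criterion for a swap-symmetric relation**: `y` is integral over `K[u]`. -/
theorem isIntegral_of_swap_relation
    (u y : F) (w : F ≃+* F) (hwK : ∀ k : K, w (algebraMap K F k) = algebraMap K F k)
    (hwu : w u = y) (hwy : w y = u)
    (n : ℕ) (hn : 0 < n) (c : ℕ → F)
    (hχ : y ^ n + ∑ k ∈ Finset.range n, c k * y ^ k = 0)
    (A B : ℕ → K[X]) (hB : ∀ k, k < n → B k ≠ 0)
    (hAB : ∀ k, k < n → c k * aeval u (B k) = aeval u (A k))
    (hA0 : A 0 ≠ 0) (hd0 : (A 0).natDegree = (B 0).natDegree + n)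
    (hk : ∀ k, 0 < k → k < n → A k = 0 ∨ (A k).natDegree < (B k).natDegree + n) :
    IsIntegral (Algebra.adjoin K {u}) y := by
  apply isIntegral_adjoin_of_forall_valuationSubring
  intro V hK hu
  have hmem : u ∈ V.comap (w : F →+* F) := by
    refine mem_of_relation (V.comap (w : F →+* F)) (fun k => ?_) ?_ n hn c hχ A B hB hAB
      hA0 hd0 hk
    · rw [ValuationSubring.mem_comap]
      simpa [hwK] using hK k
    · rw [ValuationSubring.mem_comap]
      simpa [hwy] using hu
  rw [ValuationSubring.mem_comap] at hmem
  simpa [hwu] using hmem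

/-- Transport of integrality along an automorphism fixing `K`. -/
theorem isIntegral_adjoin_map (u y : F) (w : F ≃+* F)
    (hwK : ∀ k : K, w (algebraMap K F k) = algebraMap K F k)
    (h : IsIntegral (Algebra.adjoin K {u}) y) :
    IsIntegral (Algebra.adjoin K {w u}) (w y) := by
  apply isIntegral_adjoin_of_forall_valuationSubring
  intro V hK hu
  have h1 : y ∈ (integralClosure
      (Subring.closure (Set.range (algebraMap K F) ∪ {u})) F).toSubring := by
    obtain ⟨p, hp, hpy⟩ := h
    have hle' : ∀ x : F, x ∈ Algebra.adjoin K {u} →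
        x ∈ Subring.closure (Set.range (algebraMap K F) ∪ {u}) := by
      intro x hx
      rw [← Subalgebra.mem_toSubring, Algebra.adjoin_eq_ring_closure] at hx
      exact hx
    have hle : ∀ x : Algebra.adjoin K {u},
        ((Algebra.adjoin K {u}).val x : F) ∈
          Subring.closure (Set.range (algebraMap K F) ∪ {u}) := fun x => hle' _ x.2
    refine ⟨p.map (RingHom.codRestrict ((Algebra.adjoin K {u}).val : _ →+* F) _ hle),
      hp.map _, ?_⟩
    rw [eval₂_map]
    exact hpy
  rw [← iInf_valuationSubring_superset, Subring.mem_iInf] at h1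
  have h2 := h1 ⟨V.comap (w : F →+* F), by
    rintro x (⟨k, rfl⟩ | rfl)
    · change _ ∈ V.comap (w : F →+* F)
      rw [ValuationSubring.mem_comap]
      simpa [hwK] using hK k
    · change _ ∈ V.comap (w : F →+* F)
      rw [ValuationSubring.mem_comap]
      simpa using hu⟩
  change y ∈ V.comap (w : F →+* F) at h2
  rw [ValuationSubring.mem_comap] at h2
  simpa using h2

end Val

end Fermat.Agent.S36.ModEqGen
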