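import Mathlib
import Fermat.Agent.S34.PhiShape
import Fermat.Agent.S37.HeckeCharpolyQ
import Fermat.Agent.S37.Swap
import Fermat.Agent.S36.ModEqGen.ValCrit

/-!
# The modular equation of a Hauptmodul with a simple pole, for a general prime `ℓ ∤ N`

`h ∈ F_N` with `F_N = ℚ̄(h)` and `q`-expansion `q⁻¹ + …` (simple pole, leading coefficient `1`).
For a prime `ℓ ∤ N` there is `Ψ ∈ ℚ̄[X][Y]`, monic in `Y`, with `Ψ(h(q), h(q^ℓ)) = 0`, whose
coefficients lie in every subring `A ⊆ ℚ̄` containing the `ℓ`-th roots of unity and the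
`q`-coefficients of `h` (`exists_modPoly`).

Proof.  The characteristic polynomial `χ` of `β h = h(q^ℓ)` over `α(F_N)` has, after `q ↦ q^ℓ`,
the roots `h(q^{ℓ²})`, `h(zⁱ q)` (`HeckeCharpolyQ.charpoly_coe_expand`); so its constant term has a
pole of exact order `ℓ + 1` at `∞` and the other coefficients have smaller pole order.  With the
Atkin–Lehner swap (`Swap.exists_swap_algEquiv`) the valuative criterion `ValCrit` shows that
`β h` is integral over `ℚ̄[α h]`.  Hence the minimal polynomial of `β h` over `ℚ̄(h)` has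
coefficients in `ℚ̄[h]`; it divides `χ`, so its `q`-coefficients lie in `A`, and the triangular
shape of the powers of `h = q⁻¹ + …` gives coefficients in `A[h]`.
-/

set_option autoImplicit false

open ModularCurve AlgebraicCurve HahnSeries Polynomial

noncomputable section

namespace Fermat.Agent.S36.ModEqGen

open Fermat.Agent.S24.Modular Fermat.Agent.S30 Fermat.Agent.S34.PhiShape
open Fermat.Agent.S37.HeckeCharpolyQ

/-! ### Formal lemmas on pole orders -/

section Formal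

variable {R : Type*} [CommRing R]

theorem algebraMap_eq_C (c : R) : algebraMap R (LaurentSeries R) c = HahnSeries.C c := by
  have h1 : algebraMap R (PowerSeries R) c = PowerSeries.C c := rfl
  rw [HahnSeries.algebraMap_apply', h1, HahnSeries.ofPowerSeries_C]

theorem coeff_algSMul (c : R) (f : LaurentSeries R) (n : ℤ) :
    (@HSMul.hSMul R (LaurentSeries R) (LaurentSeries R) (@instHSMul _ _ Algebra.toSMul) c f).coeff n
      = c * f.coeff n := by
  rw [Algebra.smul_def, algebraMap_eq_C, HahnSeries.C_mul_eq_smul, HahnSeries.coeff_smul]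
  rfl

theorem le_of_poleLE_of_coeff_ne_zero {B B' : ℤ} {f : LaurentSeries R} (hf : PoleLE B f)
    (h : f.coeff (-B') ≠ 0) : B' ≤ B := by
  by_contra hlt
  exact h (hf _ (by omega))

theorem poleLE_pow {H : LaurentSeries R} (hH : PoleLE 1 H) (d : ℕ) :
    PoleLE d (H ^ d) ∧ (H ^ d).coeff (-(d : ℤ)) = H.coeff (-1) ^ d := by
  induction d with
  | zero =>
    refine ⟨by simpa using poleLE_one, ?_⟩
    simp
  | succ d ih =>
    have h := ih.1.mul hH
    rw [pow_succ]
    push_cast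
    exact ⟨h.1, by rw [h.2, ih.2, pow_succ]⟩

theorem poleLE_aeval {H : LaurentSeries R} (hH : PoleLE 1 H) (P : R[X]) :
    PoleLE P.natDegree (aeval H P) ∧
      (aeval H P).coeff (-(P.natDegree : ℤ)) = P.leadingCoeff * H.coeff (-1) ^ P.natDegree := by
  rw [aeval_eq_sum_range]
  constructor
  · apply poleLE_sum
    intro i hi
    have hi' : i < P.natDegree + 1 := Finset.mem_range.1 hi
    intro n hn
    rw [coeff_algSMul, (poleLE_pow hH i).1 n (by omega), mul_zero]
  · rw [HahnSeries.coeff_sum, Finset.sum_range_succ, Finset.sum_eq_zero, zero_add,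
      coeff_algSMul, (poleLE_pow hH _).2]
    · rfl
    · intro i hi
      have hi' : i < P.natDegree := Finset.mem_range.1 hi
      rw [coeff_algSMul, (poleLE_pow hH i).1 _ (by omega), mul_zero]

theorem poleLE_expand {ℓ : ℕ} (hℓ : 0 < ℓ) {B : ℤ} {f : LaurentSeries R} (hf : PoleLE B f) :
    PoleLE (ℓ * B) (Congr.expand ℓ hℓ f) ∧
      (Congr.expand ℓ hℓ f).coeff (-(ℓ * B)) = f.coeff (-B) := by
  constructor
  · intro n hn
    by_cases hd : (ℓ : ℤ) ∣ n
    · obtain ⟨m, rfl⟩ := hd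
      rw [Congr.coeff_expand_mul]
      apply hf
      have : (0 : ℤ) < ℓ := by exact_mod_cast hℓ
      nlinarith
    · exact Congr.coeff_expand_of_not_dvd ℓ hℓ f hd
  · rw [show -((ℓ : ℤ) * B) = (ℓ : ℤ) * (-B) by ring, Congr.coeff_expand_mul]

theorem coeff_eq_zero_of_poleLE_expand {ℓ : ℕ} (hℓ : 0 < ℓ) {B : ℤ} {f : LaurentSeries R}
    (hf : PoleLE B (Congr.expand ℓ hℓ f)) {n : ℤ} (hn : (ℓ : ℤ) * n < -B) : f.coeff n = 0 := by
  rw [← Congr.coeff_expand_mul ℓ hℓ f n]
  exact hf _ hn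

theorem poleLE_rescale (z : Rˣ) {B : ℤ} {f : LaurentSeries R} (hf : PoleLE B f) :
    PoleLE B (Congr.rescale z f) := fun n hn => by
  rw [Congr.coeff_rescale, hf n hn, mul_zero]

/-- Weighted pole bound for a polynomial over Laurent series: the coefficient of `X ^ k` has a
pole of order at most `d - k`. -/
def WLE (d : ℤ) (P : (LaurentSeries R)[X]) : Prop := ∀ k : ℕ, PoleLE (d - k) (P.coeff k)

theorem WLE.mul {d e : ℤ} {P Q : (LaurentSeries R)[X]} (hP : WLE d P) (hQ : WLE e Q) :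
    WLE (d + e) (P * Q) := by
  intro k
  rw [Polynomial.coeff_mul]
  apply poleLE_sum
  intro ij hij
  have h := ((hP ij.1).mul (hQ ij.2)).1
  have hk : (ij.1 : ℤ) + ij.2 = k := by
    exact_mod_cast Finset.HasAntidiagonal.mem_antidiagonal.1 hij
  exact h.mono (by omega)

theorem wle_one : WLE 0 (1 : (LaurentSeries R)[X]) := by
  intro k
  rw [Polynomial.coeff_one]
  split_ifs with h
  · subst h
    simpa using poleLE_one
  · exact poleLE_zero _

theorem wle_X_sub_C {r : LaurentSeries R} (hr : PoleLE 1 r) : WLE 1 (X - Polynomial.C r) := by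
  intro k
  rw [Polynomial.coeff_sub, Polynomial.coeff_X, Polynomial.coeff_C]
  rcases k with _ | _ | k
  · simpa using hr.neg
  · simpa using poleLE_one
  · simpa using poleLE_zero _

theorem wle_prod {ι : Type*} (s : Finset ι) (r : ι → LaurentSeries R)
    (hr : ∀ i ∈ s, PoleLE 1 (r i)) : WLE s.card (∏ i ∈ s, (X - Polynomial.C (r i))) := by
  classical
  induction s using Finset.induction_on with
  | empty => simpa using wle_one
  | insert i s hi ih =>
    rw [Finset.prod_insert hi, Finset.card_insert_of_notMem hi]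
    have h := (wle_X_sub_C (hr i (Finset.mem_insert_self i s))).mul
      (ih fun j hj => hr j (Finset.mem_insert_of_mem hj))
    push_cast
    rwa [add_comm] at h

/-- Coefficients of positive index of `(X - X₁) ∏ (X - Rᵢ)`. -/
theorem poleLE_coeff_pos {ℓ : ℕ} (X1 : LaurentSeries R) (Rr : ℕ → LaurentSeries R) (D : ℤ)
    (hD : 1 ≤ D) (hX1 : PoleLE D X1) (hR : ∀ i, PoleLE 1 (Rr i)) (k : ℕ) (hk : 0 < k) :
    PoleLE (D + ℓ - k)
      (((X - Polynomial.C X1) * ∏ i ∈ Finset.range ℓ, (X - Polynomial.C (Rr i))).coeff k) := by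
  obtain ⟨k, rfl⟩ := Nat.exists_eq_succ_of_ne_zero hk.ne'
  have hQ : WLE ℓ (∏ i ∈ Finset.range ℓ, (X - Polynomial.C (Rr i))) := by
    have := wle_prod (Finset.range ℓ) Rr (fun i _ => hR i)
    rwa [Finset.card_range] at this
  rw [sub_mul, Polynomial.coeff_sub, Polynomial.coeff_X_mul, Polynomial.coeff_C_mul]
  have h1 : PoleLE (D + ℓ - ((k + 1 : ℕ) : ℤ)) ((∏ i ∈ Finset.range ℓ, (X - Polynomial.C (Rr i))).coeff k) :=
    (hQ k).mono (by push_cast; omega)
  have h2 : PoleLE (D + ℓ - ((k + 1 : ℕ) : ℤ))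
      (X1 * (∏ i ∈ Finset.range ℓ, (X - Polynomial.C (Rr i))).coeff (k + 1)) :=
    ((hX1.mul (hQ (k + 1))).1).mono (by push_cast; omega)
  have h3 := PoleLE.add h1 h2.neg
  rwa [← sub_eq_add_neg] at h3

/-- The constant coefficient of `(X - X₁) ∏ (X - Rᵢ)`. -/
theorem poleLE_coeff_zero {ℓ : ℕ} (X1 : LaurentSeries R) (Rr : ℕ → LaurentSeries R) (D : ℤ)
    (hX1 : PoleLE D X1) (hR : ∀ i, PoleLE 1 (Rr i)) :
    PoleLE (D + ℓ) (((X - Polynomial.C X1) * ∏ i ∈ Finset.range ℓ, (X - Polynomial.C (Rr i))).coeff 0) ∧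
      (((X - Polynomial.C X1) * ∏ i ∈ Finset.range ℓ, (X - Polynomial.C (Rr i))).coeff 0).coeff (-(D + ℓ))
        = (-X1).coeff (-D) * ∏ i ∈ Finset.range ℓ, (-(Rr i)).coeff (-1) := by
  have h0 : ((X - Polynomial.C X1) * ∏ i ∈ Finset.range ℓ, (X - Polynomial.C (Rr i))).coeff 0
      = (-X1) * ∏ i ∈ Finset.range ℓ, (-(Rr i)) := by
    rw [Polynomial.coeff_zero_eq_eval_zero, Polynomial.eval_mul, Polynomial.eval_prod]
    simp
  have hp := poleLE_prod (Finset.range ℓ) (fun i => -(Rr i)) (fun _ => (1 : ℤ))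
    (fun i _ => (hR i).neg)
  have hs : ∑ i ∈ Finset.range ℓ, (1 : ℤ) = ℓ := by simp
  rw [hs] at hp
  have hm := hX1.neg.mul hp.1
  rw [h0]
  exact ⟨hm.1, by rw [hm.2, hp.2]⟩

end Formal

/-! ### The Hecke characteristic polynomial of a function with a simple pole -/

section Modular

variable (N ℓ : ℕ) [NeZero N] [NeZero ℓ]

omit [NeZero N] in
theorem coe_aeval (h : FN N) (P : Kbar[X]) :
    ((aeval h P : FN N) : LaurentSeries Kbar) = aeval (h : LaurentSeries Kbar) P :=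
  (Polynomial.aeval_algHom_apply (modularFunctionFieldBar N).val h P).symm

omit [NeZero ℓ] in
theorem exists_primitiveRoot_unit (hℓ : 0 < ℓ) : ∃ z : Kbarˣ, IsPrimitiveRoot z ℓ := by
  have hℓ0 : (ℓ : Kbar) ≠ 0 := Nat.cast_ne_zero.mpr hℓ.ne'
  haveI : NeZero (ℓ : Kbar) := ⟨hℓ0⟩
  obtain ⟨ζ, hζ⟩ := HasEnoughRootsOfUnity.exists_primitiveRoot Kbar ℓ
  refine ⟨(hζ.isUnit hℓ.ne').unit, ?_⟩
  rw [← IsPrimitiveRoot.coe_units_iff]
  exact hζ

theorem monic_heckeCharpoly (h : FN N) : (heckeCharpoly N ℓ h).Monic := by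
  letI := AlgebraicCurve.algebraAlong (heckeAlphaBar Kbar N ℓ)
  haveI : Module.Finite (FN N) (FN (N * ℓ)) := HeckeNormQ.finite_alpha N ℓ
  exact LinearMap.charpoly_monic (Algebra.lmul (FN N) (FN (N * ℓ)) (heckeBetaBar Kbar N ℓ h))

theorem natDegree_heckeCharpoly (hℓ : ℓ.Prime) (hℓN : ¬ ℓ ∣ N) (h : FN N) :
    (heckeCharpoly N ℓ h).natDegree = ℓ + 1 := by
  obtain ⟨z, hz⟩ := exists_primitiveRoot_unit ℓ hℓ.pos
  have hmon := monic_heckeCharpoly N ℓ h
  have h1 := congrArg Polynomial.natDegree (charpoly_coe_expand N ℓ hℓ hℓN z hz h)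
  rw [(hmon.map _).natDegree_map, hmon.natDegree_map] at h1
  rw [h1, Polynomial.Monic.natDegree_mul (monic_X_sub_C _)
    (monic_prod_of_monic _ _ fun i _ => monic_X_sub_C _), natDegree_X_sub_C,
    natDegree_prod_of_monic _ _ (fun i _ => monic_X_sub_C _)]
  simp [add_comm]

/-- Pole orders of the coefficients of the Hecke characteristic polynomial of a function with a
simple pole `q⁻¹ + …`: the constant term has a pole of exact order `ℓ + 1`, the others of order
at most `ℓ`. -/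
theorem poleLE_coeff_heckeCharpoly (hℓ : ℓ.Prime) (hℓN : ¬ ℓ ∣ N) (h : FN N)
    (hP : PoleLE 1 (h : LaurentSeries Kbar)) (hT : (h : LaurentSeries Kbar).coeff (-1) = 1) :
    (∀ k : ℕ, 0 < k →
        PoleLE ℓ (((heckeCharpoly N ℓ h).coeff k : FN N) : LaurentSeries Kbar)) ∧
      PoleLE (ℓ + 1) (((heckeCharpoly N ℓ h).coeff 0 : FN N) : LaurentSeries Kbar) ∧
      (((heckeCharpoly N ℓ h).coeff 0 : FN N) : LaurentSeries Kbar).coeff (-((ℓ : ℤ) + 1)) ≠ 0 := by
  obtain ⟨z, hz⟩ := exists_primitiveRoot_unit ℓ hℓ.pos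
  have hℓ0 : (0 : ℤ) < ℓ := by exact_mod_cast hℓ.pos
  have hX1 := poleLE_expand hℓ.pos (poleLE_expand hℓ.pos hP).1
  have hR : ∀ i : ℕ, PoleLE 1 (Congr.rescale (z ^ i) (h : LaurentSeries Kbar)) :=
    fun i => poleLE_rescale _ hP
  have key : ∀ k : ℕ, Congr.expand ℓ hℓ.pos (((heckeCharpoly N ℓ h).coeff k : FN N) : LaurentSeries Kbar)
      = ((X - Polynomial.C
          (Congr.expand ℓ hℓ.pos (Congr.expand ℓ hℓ.pos (h : LaurentSeries Kbar))))
        * ∏ i ∈ Finset.range ℓ,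
          (X - Polynomial.C (Congr.rescale (z ^ i) (h : LaurentSeries Kbar)))).coeff k := by
    intro k
    rw [← charpoly_coe_expand N ℓ hℓ hℓN z hz h, Polynomial.coeff_map, Polynomial.coeff_map]
    rfl
  refine ⟨fun k hk => ?_, ?_, ?_⟩
  · have h1 := poleLE_coeff_pos (ℓ := ℓ) _ _ ((ℓ : ℤ) * ((ℓ : ℤ) * 1)) (by nlinarith) hX1.1 hR k hk
    rw [← key k] at h1
    intro n hn
    refine coeff_eq_zero_of_poleLE_expand hℓ.pos h1 ?_
    have hk' : (0 : ℤ) < k := by exact_mod_cast hk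
    nlinarith
  · have h1 := (poleLE_coeff_zero (ℓ := ℓ) _ _ ((ℓ : ℤ) * ((ℓ : ℤ) * 1)) hX1.1 hR).1
    rw [← key 0] at h1
    intro n hn
    refine coeff_eq_zero_of_poleLE_expand hℓ.pos h1 ?_
    nlinarith
  · have h1 := (poleLE_coeff_zero (ℓ := ℓ) _ _ ((ℓ : ℤ) * ((ℓ : ℤ) * 1)) hX1.1 hR).2
    rw [← key 0] at h1
    rw [← Congr.coeff_expand_mul ℓ hℓ.pos,
      show (ℓ : ℤ) * (-((ℓ : ℤ) + 1)) = -((ℓ : ℤ) * ((ℓ : ℤ) * 1) + ℓ) by ring, h1]
    refine mul_ne_zero ?_ (Finset.prod_ne_zero_iff.2 fun i _ => ?_)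
    · rw [HahnSeries.coeff_neg, hX1.2, (poleLE_expand hℓ.pos hP).2, hT]
      exact neg_ne_zero.2 one_ne_zero
    · rw [HahnSeries.coeff_neg, Congr.coeff_rescale, hT, mul_one]
      exact neg_ne_zero.2 (Units.ne_zero _)

/-- **Integrality over `ℚ̄`.**  If `F_N = ℚ̄(h)` and `h = q⁻¹ + …`, then `h(q^ℓ)` is integral
over `ℚ̄[h(q)]` inside `F_{Nℓ}` (`ℓ` prime, `ℓ ∤ N`). -/
theorem isIntegral_beta (hℓ : ℓ.Prime) (hℓN : ¬ ℓ ∣ N) (h : FN N)
    (hG : IntermediateField.adjoin Kbar {h} = ⊤)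
    (hP : PoleLE 1 (h : LaurentSeries Kbar)) (hT : (h : LaurentSeries Kbar).coeff (-1) = 1) :
    IsIntegral (Algebra.adjoin Kbar {heckeAlphaBar Kbar N ℓ h}) (heckeBetaBar Kbar N ℓ h) := by
  obtain ⟨w, hwα, hwβ, -⟩ := Fermat.Agent.S37.Swap.exists_swap_algEquiv N ℓ hℓ hℓN
  have hdeg := natDegree_heckeCharpoly N ℓ hℓ hℓN h
  have hmon := monic_heckeCharpoly N ℓ h
  obtain ⟨hpos, hzero, htop⟩ := poleLE_coeff_heckeCharpoly N ℓ hℓ hℓN h hP hT
  -- rational representation of the elements of `F_N = ℚ̄(h)`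
  have hrep : ∀ x : FN N, ∃ A B : Kbar[X], B ≠ 0 ∧ x * aeval h B = aeval h A := by
    intro x
    have hx : x ∈ IntermediateField.adjoin Kbar {h} := by rw [hG]; trivial
    obtain ⟨r, s, hrs⟩ := (IntermediateField.mem_adjoin_simple_iff Kbar x).1 hx
    by_cases hs : aeval h s = 0
    · refine ⟨0, 1, one_ne_zero, ?_⟩
      rw [hrs, hs, div_zero]
      simp
    · refine ⟨r, s, fun h0 => hs (by rw [h0, map_zero]), ?_⟩
      rw [hrs, div_mul_cancel₀ _ hs]
  choose A B hB hAB using fun k : ℕ => hrep ((heckeCharpoly N ℓ h).coeff k)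
  have hlead : ∀ Q : Kbar[X], Q ≠ 0 →
      (aeval (h : LaurentSeries Kbar) Q).coeff (-(Q.natDegree : ℤ)) ≠ 0 := by
    intro Q hQ
    rw [(poleLE_aeval hP Q).2, hT, one_pow, mul_one]
    exact leadingCoeff_ne_zero.2 hQ
  have hcoe : ∀ k : ℕ, (((heckeCharpoly N ℓ h).coeff k : FN N) : LaurentSeries Kbar)
      * aeval (h : LaurentSeries Kbar) (B k) = aeval (h : LaurentSeries Kbar) (A k) := by
    intro k
    rw [← coe_aeval, ← coe_aeval, ← hAB k]
    rfl
  refine isIntegral_of_swap_relation (K := Kbar) _ _ w.toRingEquiv (fun k => w.commutes k)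
    (hwα h) (hwβ h) (ℓ + 1) (Nat.succ_pos _)
    (fun k => heckeAlphaBar Kbar N ℓ ((heckeCharpoly N ℓ h).coeff k)) ?_ A B (fun k _ => hB k)
    ?_ ?_ ?_ ?_
  · -- Cayley–Hamilton
    letI := AlgebraicCurve.algebraAlong (heckeAlphaBar Kbar N ℓ)
    haveI : Module.Finite (FN N) (FN (N * ℓ)) := HeckeNormQ.finite_alpha N ℓ
    have hCH : aeval (heckeBetaBar Kbar N ℓ h) (heckeCharpoly N ℓ h) = 0 := by
      have h1 : aeval (Algebra.lmul (FN N) (FN (N * ℓ)) (heckeBetaBar Kbar N ℓ h))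
          (heckeCharpoly N ℓ h) = 0 := LinearMap.aeval_self_charpoly _
      rw [Polynomial.aeval_algHom_apply] at h1
      have h2 := congrArg (fun f : FN (N * ℓ) →ₗ[FN N] FN (N * ℓ) => f 1) h1
      simpa using h2
    rw [aeval_def, eval₂_eq_sum_range, hdeg, Finset.sum_range_succ] at hCH
    have hlc : (heckeCharpoly N ℓ h).coeff (ℓ + 1) = 1 := by
      rw [← hdeg]
      exact hmon.coeff_natDegree
    rw [hlc, map_one, one_mul] at hCH
    rw [add_comm]
    exact hCH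
  · intro k _
    rw [aeval_algHom_apply, aeval_algHom_apply, ← map_mul, hAB k]
  · -- `A 0 ≠ 0`
    intro h0
    have hm := hzero.mul (poleLE_aeval hP (B 0)).1
    rw [hcoe 0, h0, map_zero] at hm
    have h2 := hm.2
    rw [HahnSeries.coeff_zero] at h2
    exact mul_ne_zero htop (hlead (B 0) (hB 0)) h2.symm
  · -- the exact degree of `A 0`
    have hm := hzero.mul (poleLE_aeval hP (B 0)).1
    rw [hcoe 0] at hm
    have hA0 : A 0 ≠ 0 := by
      intro h0
      have h2 := hm.2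
      rw [h0, map_zero, HahnSeries.coeff_zero] at h2
      exact mul_ne_zero htop (hlead (B 0) (hB 0)) h2.symm
    have h3 : ((A 0).natDegree : ℤ) ≤ (ℓ : ℤ) + 1 + (B 0).natDegree :=
      le_of_poleLE_of_coeff_ne_zero hm.1 (hlead (A 0) hA0)
    have h4 : (ℓ : ℤ) + 1 + (B 0).natDegree ≤ ((A 0).natDegree : ℤ) := by
      refine le_of_poleLE_of_coeff_ne_zero (poleLE_aeval hP (A 0)).1 ?_
      rw [hm.2]
      exact mul_ne_zero htop (hlead (B 0) (hB 0))
    omega
  · intro k hk0 hkn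
    by_cases hA : A k = 0
    · exact Or.inl hA
    · right
      have hm := (hpos k hk0).mul (poleLE_aeval hP (B k)).1
      rw [hcoe k] at hm
      have h3 : ((A k).natDegree : ℤ) ≤ (ℓ : ℤ) + (B k).natDegree :=
        le_of_poleLE_of_coeff_ne_zero hm.1 (hlead (A k) hA)
      omega

end Modular

end Fermat.Agent.S36.ModEqGen
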