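import Mathlib
import Fermat.Agent.S36.ModEqGen.Hecke

/-!
# The modular equation of a Hauptmodul `h = q⁻¹ + …`: coefficients in a subring

`exists_modPoly`: under the hypotheses of `isIntegral_beta` (`F_N = ℚ̄(h)`, `h = q⁻¹ + …`,
`ℓ ∤ N` prime), and for a subring `A ⊆ ℚ̄` containing the `ℓ`-th roots of unity and the
`q`-coefficients of `h`, there is `Ψ ∈ A[X][Y]`, monic in `Y`, with `Ψ(h(q), h(q^ℓ)) = 0`.
(`Ψ` is the minimal polynomial of `h(q^ℓ)` over `ℚ̄[h(q)]`.)
-/

set_option autoImplicit false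

open ModularCurve AlgebraicCurve HahnSeries Polynomial

noncomputable section

namespace Fermat.Agent.S36.ModEqGen

open Fermat.Agent.S24.Modular Fermat.Agent.S30 Fermat.Agent.S34.PhiShape
open Fermat.Agent.S37.HeckeCharpolyQ

/-! ### Integrality over `K[u]` and bivariate polynomials -/

section Bivariate

variable {K F : Type*} [CommRing K] [CommRing F] [Algebra K F]

theorem aeval_eq_algebraMap_comp (u : F) :
    (aeval u : K[X] →ₐ[K] F).toRingHom
      = (algebraMap (Algebra.adjoin K {u}) F).comp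
          (aeval (⟨u, Algebra.self_mem_adjoin_singleton K u⟩ : Algebra.adjoin K {u}) :
            K[X] →ₐ[K] Algebra.adjoin K {u}).toRingHom := by
  refine RingHom.ext fun g => ?_
  exact Subalgebra.aeval_coe _ (⟨u, Algebra.self_mem_adjoin_singleton K u⟩ : Algebra.adjoin K {u}) g

/-- An element integral over `K[u]` is a root of a bivariate polynomial `Ψ(u, Y)`, monic in
`Y`. -/
theorem exists_monic_of_isIntegral_adjoin {u y : F}
    (h : IsIntegral (Algebra.adjoin K {u}) y) :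
    ∃ Ψ : K[X][X], Ψ.Monic ∧ eval₂ (aeval u : K[X] →ₐ[K] F).toRingHom y Ψ = 0 := by
  obtain ⟨p, hp, hpy⟩ := h
  have hφ : Function.Surjective
      (aeval (⟨u, Algebra.self_mem_adjoin_singleton K u⟩ : Algebra.adjoin K {u}) :
        K[X] →ₐ[K] Algebra.adjoin K {u}).toRingHom := by
    rintro ⟨x, hx⟩
    rw [Algebra.adjoin_singleton_eq_range_aeval] at hx
    obtain ⟨g, rfl⟩ := hx
    refine ⟨g, Subtype.ext ?_⟩
    exact (Subalgebra.aeval_coe _
      (⟨u, Algebra.self_mem_adjoin_singleton K u⟩ : Algebra.adjoin K {u}) g).symm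
  have hlift : p ∈ Polynomial.lifts
      (aeval (⟨u, Algebra.self_mem_adjoin_singleton K u⟩ : Algebra.adjoin K {u}) :
        K[X] →ₐ[K] Algebra.adjoin K {u}).toRingHom := by
    rw [Polynomial.mem_lifts]
    exact Polynomial.map_surjective _ hφ p
  obtain ⟨Ψ, hΨ, -, hmon⟩ := Polynomial.lifts_and_natDegree_eq_and_monic hlift hp
  refine ⟨Ψ, hmon, ?_⟩
  rw [aeval_eq_algebraMap_comp, ← eval₂_map, hΨ]
  exact hpy

/-- A root of a bivariate polynomial `Ψ(u, Y)`, monic in `Y`, is integral over `K[u]`. -/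
theorem isIntegral_adjoin_of_monic {u y : F} (Ψ : K[X][X]) (hΨ : Ψ.Monic)
    (h : eval₂ (aeval u : K[X] →ₐ[K] F).toRingHom y Ψ = 0) :
    IsIntegral (Algebra.adjoin K {u}) y := by
  refine ⟨Ψ.map (aeval (⟨u, Algebra.self_mem_adjoin_singleton K u⟩ : Algebra.adjoin K {u}) :
        K[X] →ₐ[K] Algebra.adjoin K {u}).toRingHom, hΨ.map _, ?_⟩
  rw [eval₂_map, ← aeval_eq_algebraMap_comp]
  exact h

end Bivariate

/-! ### The triangular argument -/

section Triangular

variable {K : Type*} [Field K]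

theorem C_mem_coeffSubring (A : Subring K) {a : K} (ha : a ∈ A) :
    (HahnSeries.C a : LaurentSeries K) ∈ coeffSubring A := by
  intro n
  rw [HahnSeries.C_apply, HahnSeries.coeff_single]
  split_ifs
  · exact ha
  · exact A.zero_mem

/-- If `H = q⁻¹ + …` has coefficients in `A` and `p(H)` has coefficients in `A`, then `p` has
coefficients in `A`. -/
theorem coeff_mem_of_aeval_mem (A : Subring K) {H : LaurentSeries K}
    (hP : PoleLE 1 H) (hT : H.coeff (-1) = 1) (hH : H ∈ coeffSubring A) (p : K[X])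
    (hp : aeval H p ∈ coeffSubring A) : ∀ i, p.coeff i ∈ A := by
  induction' hd : p.natDegree using Nat.strong_induction_on with d ih generalizing p
  have ha : p.leadingCoeff ∈ A := by
    have h1 := hp (-(p.natDegree : ℤ))
    rwa [(poleLE_aeval hP p).2, hT, one_pow, mul_one] at h1
  have hsplit := p.eraseLead_add_C_mul_X_pow
  have hmono : aeval H (Polynomial.C p.leadingCoeff * X ^ p.natDegree) ∈ coeffSubring A := by
    rw [map_mul, aeval_C, map_pow, aeval_X, algebraMap_eq_C]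
    exact Subring.mul_mem _ (C_mem_coeffSubring A ha) (Subring.pow_mem _ hH _)
  have hp' : aeval H p.eraseLead ∈ coeffSubring A := by
    have h2 : aeval H p.eraseLead
        = aeval H p - aeval H (Polynomial.C p.leadingCoeff * X ^ p.natDegree) := by
      rw [← map_sub]
      congr 1
      exact eq_sub_of_add_eq hsplit
    rw [h2]
    exact Subring.sub_mem _ hp hmono
  intro i
  have hi : p.coeff i = p.eraseLead.coeff i
      + (Polynomial.C p.leadingCoeff * X ^ p.natDegree).coeff i := by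
    conv_lhs => rw [← hsplit]
    rw [Polynomial.coeff_add]
  rw [hi, Polynomial.coeff_C_mul_X_pow]
  refine A.add_mem ?_ (by split_ifs; exacts [ha, A.zero_mem])
  by_cases hd0 : d = 0
  · have h3 : p.eraseLead = 0 := by
      have h4 : p = Polynomial.C (p.coeff 0) :=
        Polynomial.eq_C_of_natDegree_eq_zero (hd.trans hd0)
      rw [h4, Polynomial.eraseLead_C]
    rw [h3, Polynomial.coeff_zero]
    exact A.zero_mem
  · have hlt : p.eraseLead.natDegree < d := by
      have := p.eraseLead_natDegree_le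
      omega
    exact ih _ hlt p.eraseLead hp' rfl i

end Triangular

/-! ### The modular equation -/

section Modular

variable (N ℓ : ℕ) [NeZero N] [NeZero ℓ]

theorem expand_mem_coeffSubring (A : Subring Kbar) (hℓ : 0 < ℓ) {f : LaurentSeries Kbar}
    (hf : f ∈ coeffSubring A) : Congr.expand ℓ hℓ f ∈ coeffSubring A := by
  intro n
  by_cases hd : (ℓ : ℤ) ∣ n
  · obtain ⟨m, rfl⟩ := hd
    rw [Congr.coeff_expand_mul]
    exact hf m
  · rw [Congr.coeff_expand_of_not_dvd ℓ hℓ f hd]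
    exact A.zero_mem

theorem rescale_mem_coeffSubring (A : Subring Kbar) (hA : ∀ ζ : Kbar, ζ ^ ℓ = 1 → ζ ∈ A)
    (z : Kbarˣ) (hz : z ^ ℓ = 1) (i : ℕ) {f : LaurentSeries Kbar} (hf : f ∈ coeffSubring A) :
    Congr.rescale (z ^ i) f ∈ coeffSubring A := by
  intro n
  rw [Congr.coeff_rescale]
  refine A.mul_mem (hA _ ?_) (hf n)
  have h1 : ((z ^ i) ^ n) ^ ℓ = (1 : Kbarˣ) := by
    rw [← zpow_natCast, ← zpow_mul, mul_comm, zpow_mul, zpow_natCast, ← pow_mul, mul_comm,
      pow_mul, hz, one_pow, one_zpow]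
  have h2 := congrArg (fun x : Kbarˣ => (x : Kbar)) h1
  simpa using h2

/-- **The modular equation of a Hauptmodul with a simple pole.**  If `F_N = ℚ̄(h)`,
`h = q⁻¹ + …`, `ℓ ∤ N` prime, and `A ⊆ ℚ̄` is a subring containing the `ℓ`-th roots of unity
and the `q`-coefficients of `h`, then there is `Ψ ∈ A[X][Y]`, monic in `Y`, with
`Ψ(h(q), h(q^ℓ)) = 0`. -/
theorem exists_modPoly (hℓ : ℓ.Prime) (hℓN : ¬ ℓ ∣ N) (h : FN N)
    (hG : IntermediateField.adjoin Kbar {h} = ⊤)
    (hP : PoleLE 1 (h : LaurentSeries Kbar)) (hT : (h : LaurentSeries Kbar).coeff (-1) = 1)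
    (A : Subring Kbar) (hA : ∀ ζ : Kbar, ζ ^ ℓ = 1 → ζ ∈ A)
    (hhA : (h : LaurentSeries Kbar) ∈ coeffSubring A) :
    ∃ Ψ : Kbar[X][X], Ψ.Monic ∧ (∀ k i, (Ψ.coeff k).coeff i ∈ A) ∧
      eval₂ (aeval (heckeAlphaBar Kbar N ℓ h) : Kbar[X] →ₐ[Kbar] FN (N * ℓ)).toRingHom
        (heckeBetaBar Kbar N ℓ h) Ψ = 0 := by
  classical
  have hint := isIntegral_beta N ℓ hℓ hℓN h hG hP hT
  obtain ⟨Ψ₀, hΨ₀, hΨ₀y⟩ := exists_monic_of_isIntegral_adjoin hint
  -- `h` is transcendental
  have htr : Function.Injective (aeval h : Kbar[X] →ₐ[Kbar] FN N) := by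
    rw [injective_iff_map_eq_zero]
    intro Q hQ
    by_contra hQ0
    have h1 : (aeval (h : LaurentSeries Kbar) Q).coeff (-(Q.natDegree : ℤ)) = 0 := by
      rw [← coe_aeval, hQ]
      rfl
    rw [(poleLE_aeval hP Q).2, hT, one_pow, mul_one] at h1
    exact leadingCoeff_ne_zero.2 hQ0 h1
  letI algF : Algebra (FN N) (FN (N * ℓ)) := AlgebraicCurve.algebraAlong (heckeAlphaBar Kbar N ℓ)
  letI algP : Algebra Kbar[X] (FN N) := (aeval h : Kbar[X] →ₐ[Kbar] FN N).toRingHom.toAlgebra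
  letI algP' : Algebra Kbar[X] (FN (N * ℓ)) :=
    (aeval (heckeAlphaBar Kbar N ℓ h) : Kbar[X] →ₐ[Kbar] FN (N * ℓ)).toRingHom.toAlgebra
  haveI : IsScalarTower Kbar[X] (FN N) (FN (N * ℓ)) :=
    IsScalarTower.of_algebraMap_eq fun Q => aeval_algHom_apply (heckeAlphaBar Kbar N ℓ) h Q
  haveI : FaithfulSMul Kbar[X] (FN N) := (faithfulSMul_iff_algebraMap_injective _ _).2 htr
  haveI : IsFractionRing Kbar[X] (FN N) := IsFractionRing.of_field Kbar[X] (FN N) fun x => by
    have hx : x ∈ IntermediateField.adjoin Kbar {h} := by rw [hG]; trivial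
    obtain ⟨r, s, hrs⟩ := (IntermediateField.mem_adjoin_simple_iff Kbar x).1 hx
    exact ⟨r, s, hrs⟩
  have hint' : IsIntegral Kbar[X] (heckeBetaBar Kbar N ℓ h) := ⟨Ψ₀, hΨ₀, hΨ₀y⟩
  have hmin := minpoly.isIntegrallyClosed_eq_field_fractions' (FN N) hint'
  have hΨmon : (minpoly Kbar[X] (heckeBetaBar Kbar N ℓ h)).Monic := minpoly.monic hint'
  have hΨy : eval₂ (algebraMap Kbar[X] (FN (N * ℓ))) (heckeBetaBar Kbar N ℓ h)
      (minpoly Kbar[X] (heckeBetaBar Kbar N ℓ h)) = 0 := minpoly.aeval _ _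
  refine ⟨minpoly Kbar[X] (heckeBetaBar Kbar N ℓ h), hΨmon, ?_, hΨy⟩
  -- the minimal polynomial divides the Hecke characteristic polynomial
  haveI : Module.Finite (FN N) (FN (N * ℓ)) := HeckeNormQ.finite_alpha N ℓ
  have hCH : aeval (heckeBetaBar Kbar N ℓ h) (heckeCharpoly N ℓ h) = 0 := by
    have h1 : aeval (Algebra.lmul (FN N) (FN (N * ℓ)) (heckeBetaBar Kbar N ℓ h))
        (heckeCharpoly N ℓ h) = 0 := LinearMap.aeval_self_charpoly _
    rw [Polynomial.aeval_algHom_apply] at h1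
    have h2 := congrArg (fun f : FN (N * ℓ) →ₗ[FN N] FN (N * ℓ) => f 1) h1
    simpa using h2
  have hdvd : (minpoly Kbar[X] (heckeBetaBar Kbar N ℓ h)).map (algebraMap Kbar[X] (FN N))
      ∣ heckeCharpoly N ℓ h := by
    rw [← hmin]
    exact minpoly.dvd _ _ hCH
  obtain ⟨z, hz⟩ := exists_primitiveRoot_unit ℓ hℓ.pos
  have hdvd' : (((minpoly Kbar[X] (heckeBetaBar Kbar N ℓ h)).map
        (algebraMap Kbar[X] (FN N))).map (coeHom N)).map (Congr.expand ℓ hℓ.pos)
      ∣ (X - Polynomial.C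
          (Congr.expand ℓ hℓ.pos (Congr.expand ℓ hℓ.pos (h : LaurentSeries Kbar))))
        * ∏ i ∈ Finset.range ℓ,
          (X - Polynomial.C (Congr.rescale (z ^ i) (h : LaurentSeries Kbar))) := by
    rw [← charpoly_coe_expand N ℓ hℓ hℓN z hz h]
    exact Polynomial.map_dvd _ (Polynomial.map_dvd _ hdvd)
  have hμmon : ((((minpoly Kbar[X] (heckeBetaBar Kbar N ℓ h)).map
        (algebraMap Kbar[X] (FN N))).map (coeHom N)).map (Congr.expand ℓ hℓ.pos)).Monic :=
    ((hΨmon.map _).map _).map _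
  have hRmon : ((X - Polynomial.C
          (Congr.expand ℓ hℓ.pos (Congr.expand ℓ hℓ.pos (h : LaurentSeries Kbar))))
        * ∏ i ∈ Finset.range ℓ,
          (X - Polynomial.C (Congr.rescale (z ^ i) (h : LaurentSeries Kbar)))).Monic :=
    (monic_X_sub_C _).mul (monic_prod_of_monic _ _ fun i _ => monic_X_sub_C _)
  have hsplit := Splits.of_dvd
    (Splits.mul (Splits.X_sub_C _) (Splits.prod fun i _ => Splits.X_sub_C _)) hRmon.ne_zero hdvd'
  have hroots : ∀ a ∈ ((((minpoly Kbar[X] (heckeBetaBar Kbar N ℓ h)).map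
        (algebraMap Kbar[X] (FN N))).map (coeHom N)).map (Congr.expand ℓ hℓ.pos)).roots,
      a ∈ (coeffSubring A).subtype.range := by
    intro a ha
    have ha0 := (Polynomial.mem_roots hμmon.ne_zero).1 ha
    have ha1 := eval_eq_zero_of_dvd_of_eval_eq_zero hdvd' ha0
    rw [eval_mul, eval_prod, mul_eq_zero, Finset.prod_eq_zero_iff] at ha1
    simp only [eval_sub, eval_X, eval_C, sub_eq_zero] at ha1
    rcases ha1 with h1 | ⟨i, -, h1⟩
    · rw [h1]
      exact ⟨⟨_, expand_mem_coeffSubring ℓ A hℓ.pos (expand_mem_coeffSubring ℓ A hℓ.pos hhA)⟩, rfl⟩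
    · rw [h1]
      exact ⟨⟨_, rescale_mem_coeffSubring ℓ A hA z hz.pow_eq_one i hhA⟩, rfl⟩
  have hlift := hsplit.mem_lift_of_roots_mem_range hμmon (coeffSubring A).subtype hroots
  intro k
  have hk : Congr.expand ℓ hℓ.pos
      (aeval (h : LaurentSeries Kbar) ((minpoly Kbar[X] (heckeBetaBar Kbar N ℓ h)).coeff k))
      ∈ coeffSubring A := by
    obtain ⟨g, hg⟩ := (Polynomial.mem_lifts _).1 hlift
    have h1 := congrArg (fun P => P.coeff k) hg
    simp only [Polynomial.coeff_map] at h1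
    rw [← coe_aeval]
    have h2 : Congr.expand ℓ hℓ.pos ((aeval h
        ((minpoly Kbar[X] (heckeBetaBar Kbar N ℓ h)).coeff k) : FN N) : LaurentSeries Kbar)
        = (coeffSubring A).subtype (g.coeff k) := h1.symm
    rw [h2]
    exact (g.coeff k).2
  have hk2 : aeval (h : LaurentSeries Kbar)
      ((minpoly Kbar[X] (heckeBetaBar Kbar N ℓ h)).coeff k) ∈ coeffSubring A := by
    intro n
    rw [← Congr.coeff_expand_mul ℓ hℓ.pos]
    exact hk _
  exact coeff_mem_of_aeval_mem A hP hT hhA _ hk2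

end Modular

end Fermat.Agent.S36.ModEqGen
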