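import Mathlib
import Fermat.Agent.S36.ModEqGen.HeckeInt
import Fermat.Agent.S36.Haupt4.Horiz
import Fermat.Agent.S30.E2.HauptGen
import Fermat.Agent.S24.Modular.M3

/-!
# The modular equation of `u₄` for every odd prime `q`

`u₄ = q⁻¹ + …` is the Hauptmodul of `Γ₀(4)` (`S36/Haupt4/Defs.lean`).  For every odd prime `q`
there are `Φ, Φ' ∈ ℤ[X][Y]`, monic in `Y`, with

  `Φ(u₄(q), u₄(q^q)) = 0`,   `Φ'(u₄(q^q), u₄(q)) = 0`   in `ℤ((q))`

(`exists_modPoly_u4`).  Consequently, over every commutative ring `K` and every base `O`,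
`V_q u₄` is integral over `O[u₄]` and `u₄` is integral over `O[V_q u₄]`
(`isIntegral_qExpand_u4`, `isIntegral_u4_qExpand`, and the transport form `isIntegral_of_coe_u4`
for elements of any ring embedded in `K((q))`).

Route: `F_4 = ℚ̄(u₄)` (degree count `ψ(4) = 6 = deg_u j`), `HeckeInt.exists_modPoly` with
`A = ` the ring of algebraic integers, then descent `ℤ̄[u] → ℤ[u]` by transitivity of
integrality and `ℚ̄((q)) → ℤ((q))` by injectivity of the coefficient map.
-/

set_option autoImplicit false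

open ModularCurve AlgebraicCurve HahnSeries Polynomial

noncomputable section

namespace Fermat.Agent.S36.ModEqGen

open Fermat.Agent.S24.Modular Fermat.Agent.S30 Fermat.Agent.S34.PhiShape
open Fermat.Agent.S37.HeckeCharpolyQ Fermat.Agent.S36.Haupt4

/-! ### Generic transport lemmas for bivariate integer polynomials -/

section Transport

/-- The value `Φ(u, y)` of an integer bivariate polynomial `Φ ∈ ℤ[X][Y]` (outer variable `Y`).
No `Algebra ℤ _` instance is involved. -/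
def bivEval {F : Type*} [CommRing F] (Φ : ℤ[X][X]) (u y : F) : F :=
  Φ.eval₂ (Polynomial.eval₂RingHom (Int.castRingHom F) u) y

/-- Ring homomorphisms commute with the evaluation of an integer bivariate polynomial. -/
theorem map_bivEval {F F' : Type*} [CommRing F] [CommRing F'] (g : F →+* F') (Φ : ℤ[X][X])
    (u y : F) : g (bivEval Φ u y) = bivEval Φ (g u) (g y) := by
  unfold bivEval
  rw [Polynomial.hom_eval₂]
  congr 1
  apply Polynomial.ringHom_ext
  · intro a
    simp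
  · simp

/-- A root of an integer bivariate polynomial `Φ(u, Y)`, monic in `Y`, is integral over `O[u]`
for every base ring `O`. -/
theorem isIntegral_adjoin_of_bivEval {O F : Type*} [CommRing O] [CommRing F] [Algebra O F]
    {u y : F} (Φ : ℤ[X][X]) (hΦ : Φ.Monic) (h : bivEval Φ u y = 0) :
    IsIntegral (Algebra.adjoin O {u}) y := by
  refine isIntegral_adjoin_of_monic (Φ.map (Polynomial.mapRingHom (Int.castRingHom O)))
    (hΦ.map _) ?_
  rw [eval₂_map]
  have hcomp : (aeval u : O[X] →ₐ[O] F).toRingHom.comp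
      (Polynomial.mapRingHom (Int.castRingHom O))
      = Polynomial.eval₂RingHom (Int.castRingHom F) u := by
    apply Polynomial.ringHom_ext
    · intro a
      simp
    · simp
  rw [hcomp]
  exact h

end Transport

/-! ### Descent from algebraic integers to integers -/

section Descent

theorem coeffMap_qExpand_int {R S : Type*} [CommRing R] [CommRing S] (f : R →+* S) (n : ℕ)
    [NeZero n] (x : LaurentSeries R) :
    coeffMap f (qExpand R n x) = qExpand S n (coeffMap f x) := by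
  ext k
  by_cases hk : (n : ℤ) ∣ k
  · obtain ⟨m, rfl⟩ := hk
    rw [coeffMap_coeff, qExpand_coeff_mul, qExpand_coeff_mul, coeffMap_coeff]
  · rw [coeffMap_coeff, qExpand_coeff_of_not_dvd n _ hk, qExpand_coeff_of_not_dvd n _ hk,
      map_zero]

/-- If `Ψ(u, y) = 0` for a polynomial `Ψ ∈ K[X][Y]`, monic in `Y`, whose coefficients are
algebraic integers, and `u`, `y` are the images of integral Laurent series `U`, `Y`, then there
is `Φ ∈ ℤ[X][Y]`, monic in `Y`, with `Φ(U, Y) = 0`. -/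
theorem exists_int_poly {K : Type*} [Field K] [CharZero K] (U Y : LaurentSeries ℤ)
    (Ψ : K[X][X]) (hΨ : Ψ.Monic) (hcoef : ∀ k i, IsIntegral ℤ ((Ψ.coeff k).coeff i))
    (h0 : eval₂ (aeval (coeffMap (Int.castRingHom K) U) : K[X] →ₐ[K] LaurentSeries K).toRingHom
      (coeffMap (Int.castRingHom K) Y) Ψ = 0) :
    ∃ Φ : ℤ[X][X], Φ.Monic ∧ bivEval Φ U Y = 0 := by
  have hconst0 : ∀ c : K, IsIntegral ℤ c →
      IsIntegral ℤ (algebraMap K (LaurentSeries K) c) := by
    rintro c ⟨p, hp, hpc⟩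
    refine ⟨p, hp, ?_⟩
    have h1 := Polynomial.hom_eval₂ p (algebraMap ℤ K) (algebraMap K (LaurentSeries K)) c
    rw [hpc, map_zero] at h1
    rw [show algebraMap ℤ (LaurentSeries K)
      = (algebraMap K (LaurentSeries K)).comp (algebraMap ℤ K) from RingHom.ext_int _ _]
    exact h1.symm
  have hconst : ∀ c : K, IsIntegral ℤ c →
      IsIntegral (Algebra.adjoin ℤ {coeffMap (Int.castRingHom K) U})
        (algebraMap K (LaurentSeries K) c) := fun c hc => (hconst0 c hc).tower_top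
  have hu' : IsIntegral (Algebra.adjoin ℤ {coeffMap (Int.castRingHom K) U})
      (coeffMap (Int.castRingHom K) U) :=
    isIntegral_algebraMap (R := Algebra.adjoin ℤ {coeffMap (Int.castRingHom K) U})
      (A := LaurentSeries K)
      (x := ⟨coeffMap (Int.castRingHom K) U, Algebra.self_mem_adjoin_singleton ℤ _⟩)
  have hpoly : ∀ P : K[X], (∀ i, IsIntegral ℤ (P.coeff i)) →
      IsIntegral (Algebra.adjoin ℤ {coeffMap (Int.castRingHom K) U})
        (aeval (coeffMap (Int.castRingHom K) U) P) := by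
    intro P hP
    rw [aeval_eq_sum_range]
    refine IsIntegral.sum _ fun i _ => ?_
    rw [Algebra.smul_def]
    exact (hconst _ (hP i)).mul (hu'.pow i)
  have hpmon : (Ψ.map (aeval (coeffMap (Int.castRingHom K) U) :
      K[X] →ₐ[K] LaurentSeries K).toRingHom).Monic := hΨ.map _
  have hpy : (Ψ.map (aeval (coeffMap (Int.castRingHom K) U) :
      K[X] →ₐ[K] LaurentSeries K).toRingHom).eval (coeffMap (Int.castRingHom K) Y) = 0 := by
    rw [eval_map]
    exact h0
  have hplift : Ψ.map (aeval (coeffMap (Int.castRingHom K) U) :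
      K[X] →ₐ[K] LaurentSeries K).toRingHom ∈ Polynomial.lifts
        (algebraMap (integralClosure (Algebra.adjoin ℤ {coeffMap (Int.castRingHom K) U})
          (LaurentSeries K)) (LaurentSeries K)) := by
    rw [Polynomial.lifts_iff_coeff_lifts]
    intro k
    rw [Polynomial.coeff_map]
    exact ⟨⟨_, hpoly (Ψ.coeff k) (hcoef k)⟩, rfl⟩
  obtain ⟨r, hr, -, hrmon⟩ := Polynomial.lifts_and_natDegree_eq_and_monic hplift hpmon
  have hyC : IsIntegral (integralClosure (Algebra.adjoin ℤ {coeffMap (Int.castRingHom K) U})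
      (LaurentSeries K)) (coeffMap (Int.castRingHom K) Y) :=
    ⟨r, hrmon, by rw [← eval_map, hr]; exact hpy⟩
  have hyB : IsIntegral (Algebra.adjoin ℤ {coeffMap (Int.castRingHom K) U})
      (coeffMap (Int.castRingHom K) Y) := isIntegral_trans _ hyC
  obtain ⟨Φ, hΦ, hΦy⟩ := exists_monic_of_isIntegral_adjoin hyB
  refine ⟨Φ, hΦ, ?_⟩
  have hcomp : (aeval (coeffMap (Int.castRingHom K) U) : ℤ[X] →ₐ[ℤ] LaurentSeries K).toRingHom
      = Polynomial.eval₂RingHom (Int.castRingHom (LaurentSeries K))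
          (coeffMap (Int.castRingHom K) U) := by
    apply Polynomial.ringHom_ext
    · intro a
      simp
    · simp
  rw [hcomp] at hΦy
  have h5 := map_bivEval (coeffMap (Int.castRingHom K)) Φ U Y
  rw [show bivEval Φ (coeffMap (Int.castRingHom K) U) (coeffMap (Int.castRingHom K) Y) = 0
    from hΦy] at h5
  exact Congr.coeffMap_injective _ Int.cast_injective (by rw [h5, map_zero])

end Descent

/-! ### Generic: the symmetric modular equation over `ℚ̄` -/

section Symm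

variable (N ℓ : ℕ) [NeZero N] [NeZero ℓ]

/-- `exists_modPoly`, with the swapped relation `Ψ(h(q^ℓ), h(q)) = 0` for the same `Ψ`. -/
theorem exists_modPoly_symm (hℓ : ℓ.Prime) (hℓN : ¬ ℓ ∣ N) (h : FN N)
    (hG : IntermediateField.adjoin Kbar {h} = ⊤)
    (hP : PoleLE 1 (h : LaurentSeries Kbar)) (hT : (h : LaurentSeries Kbar).coeff (-1) = 1)
    (A : Subring Kbar) (hA : ∀ ζ : Kbar, ζ ^ ℓ = 1 → ζ ∈ A)
    (hhA : (h : LaurentSeries Kbar) ∈ coeffSubring A) :
    ∃ Ψ : Kbar[X][X], Ψ.Monic ∧ (∀ k i, (Ψ.coeff k).coeff i ∈ A) ∧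
      eval₂ (aeval (heckeAlphaBar Kbar N ℓ h) : Kbar[X] →ₐ[Kbar] FN (N * ℓ)).toRingHom
        (heckeBetaBar Kbar N ℓ h) Ψ = 0 ∧
      eval₂ (aeval (heckeBetaBar Kbar N ℓ h) : Kbar[X] →ₐ[Kbar] FN (N * ℓ)).toRingHom
        (heckeAlphaBar Kbar N ℓ h) Ψ = 0 := by
  obtain ⟨Ψ, hΨ, hcoef, h1⟩ := exists_modPoly N ℓ hℓ hℓN h hG hP hT A hA hhA
  obtain ⟨w, hwα, hwβ, -⟩ := Fermat.Agent.S37.Swap.exists_swap_algEquiv N ℓ hℓ hℓN
  refine ⟨Ψ, hΨ, hcoef, h1, ?_⟩
  have h2 := congrArg (w : FN (N * ℓ) →+* FN (N * ℓ)) h1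
  rw [map_zero, Polynomial.hom_eval₂] at h2
  have hcomp : (w : FN (N * ℓ) →+* FN (N * ℓ)).comp
      (aeval (heckeAlphaBar Kbar N ℓ h) : Kbar[X] →ₐ[Kbar] FN (N * ℓ)).toRingHom
      = (aeval (heckeBetaBar Kbar N ℓ h) : Kbar[X] →ₐ[Kbar] FN (N * ℓ)).toRingHom := by
    refine RingHom.ext fun g => ?_
    have h3 := Polynomial.aeval_algHom_apply (w : FN (N * ℓ) →ₐ[Kbar] FN (N * ℓ))
      (heckeAlphaBar Kbar N ℓ h) g
    rw [← hwα h]
    exact h3.symm
  rw [hcomp] at h2
  have h4 : (w : FN (N * ℓ) →+* FN (N * ℓ)) (heckeBetaBar Kbar N ℓ h)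
      = heckeAlphaBar Kbar N ℓ h := hwβ h
  rw [h4] at h2
  exact h2

omit [NeZero N] in
/-- The coercion `F_M → ℚ̄((q))` commutes with the evaluation of bivariate polynomials. -/
theorem coe_eval₂_aeval (u y : FN N) (Ψ : Kbar[X][X]) :
    ((eval₂ (aeval u : Kbar[X] →ₐ[Kbar] FN N).toRingHom y Ψ : FN N) : LaurentSeries Kbar)
      = eval₂ (aeval (u : LaurentSeries Kbar) : Kbar[X] →ₐ[Kbar] LaurentSeries Kbar).toRingHom
          (y : LaurentSeries Kbar) Ψ := by
  have h1 := Polynomial.hom_eval₂ Ψ (aeval u : Kbar[X] →ₐ[Kbar] FN N).toRingHom (coeHom N) y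
  have hcomp : (coeHom N).comp (aeval u : Kbar[X] →ₐ[Kbar] FN N).toRingHom
      = (aeval (u : LaurentSeries Kbar) : Kbar[X] →ₐ[Kbar] LaurentSeries Kbar).toRingHom :=
    RingHom.ext fun g => coe_aeval N u g
  rw [hcomp] at h1
  exact h1

end Symm

/-! ### `F_4 = ℚ̄(u₄)` -/

section Gen

theorem dedekindPsi_four : dedekindPsi 4 = 6 := by
  have hdiv : Nat.divisors 4 = {1, 2, 4} := by decide
  have h4 : ¬ Squarefree (4 : ℕ) := by
    intro h
    have h2 := h 2 ⟨1, by norm_num⟩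
    exact absurd (Nat.isUnit_iff.1 h2) (by norm_num)
  rw [dedekindPsi, hdiv, Finset.filter_insert, if_pos squarefree_one, Finset.filter_insert,
    if_pos Nat.prime_two.squarefree, Finset.filter_singleton, if_neg h4]
  decide

/-- `j · u₄⁴ (u₄ + 16) = (u₄² + 256 u₄ + 4096)³` in `F_4`. -/
theorem jF_mul_u4F :
    jF 4 * u4F 4 (dvd_refl 4) ^ 4 * (u4F 4 (dvd_refl 4) + 16)
      = (u4F 4 (dvd_refl 4) ^ 2 + 256 * u4F 4 (dvd_refl 4) + 4096) ^ 3 := by
  apply Subtype.ext
  have h1 := jq_mul_u4 Kbar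
  have hj : coeffEmb Kbar jq = jqModC Kbar := by rw [← jqModC_rat, coeffEmb, coeffMap_jqModC]
  have h2 : ((jF 4 * u4F 4 (dvd_refl 4) ^ 4 * (u4F 4 (dvd_refl 4) + 16) : FN 4) :
      LaurentSeries Kbar) = jqModC Kbar * u4 Kbar ^ 4 * (u4 Kbar + 16) := by
    rw [← hj]
    rfl
  have h3 : (((u4F 4 (dvd_refl 4) ^ 2 + 256 * u4F 4 (dvd_refl 4) + 4096) ^ 3 : FN 4) :
      LaurentSeries Kbar) = (u4 Kbar ^ 2 + 256 * u4 Kbar + 4096) ^ 3 := rfl
  rw [h2, h3]
  exact h1

/-- **`F_4 = ℚ̄(u₄)`.** -/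
theorem adjoin_u4F_eq_top : IntermediateField.adjoin Kbar {u4F 4 (dvd_refl 4)} = ⊤ := by
  have hA0 : (X ^ 2 + (256 * X + 4096) : Kbar[X]).Monic := by monicity!
  have hA0deg : (X ^ 2 + (256 * X + 4096) : Kbar[X]).natDegree = 2 := by compute_degree!
  have hAmon : ((X ^ 2 + (256 * X + 4096)) ^ 3 : Kbar[X]).Monic := hA0.pow 3
  have hAdeg : ((X ^ 2 + (256 * X + 4096)) ^ 3 : Kbar[X]).natDegree = 6 := by
    rw [hA0.natDegree_pow, hA0deg]
  have hBdeg : (X ^ 4 * (X + 16) : Kbar[X]).natDegree = 5 := by compute_degree!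
  have hc1 : IsCoprime (X ^ 2 + (256 * X + 4096) : Kbar[X]) X := by
    refine ⟨Polynomial.C (1 / 4096 : Kbar), -Polynomial.C (1 / 4096 : Kbar) * (X + 256), ?_⟩
    have h4096 : (4096 : Kbar[X]) = Polynomial.C (4096 : Kbar) :=
      (map_ofNat (Polynomial.C : Kbar →+* Kbar[X]) 4096).symm
    have hone : Polynomial.C (1 / 4096 : Kbar) * Polynomial.C (4096 : Kbar) = 1 := by
      rw [← Polynomial.C_mul]
      norm_num
    linear_combination hone + Polynomial.C (1 / 4096 : Kbar) * h4096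
  have hc2 : IsCoprime (X ^ 2 + (256 * X + 4096) : Kbar[X]) (X + 16) := by
    refine ⟨Polynomial.C (1 / 256 : Kbar), -Polynomial.C (1 / 256 : Kbar) * (X + 240), ?_⟩
    have h256 : (256 : Kbar[X]) = Polynomial.C (256 : Kbar) :=
      (map_ofNat (Polynomial.C : Kbar →+* Kbar[X]) 256).symm
    have hone : Polynomial.C (1 / 256 : Kbar) * Polynomial.C (256 : Kbar) = 1 := by
      rw [← Polynomial.C_mul]
      norm_num
    linear_combination hone + Polynomial.C (1 / 256 : Kbar) * h256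
  have hcop : IsCoprime ((X ^ 2 + (256 * X + 4096)) ^ 3 : Kbar[X]) (X ^ 4 * (X + 16)) :=
    IsCoprime.pow_left (IsCoprime.mul_right hc1.pow_right hc2)
  have hrel : aeval (u4F 4 (dvd_refl 4)) ((X ^ 2 + (256 * X + 4096)) ^ 3 : Kbar[X])
      = jF 4 * aeval (u4F 4 (dvd_refl 4)) (X ^ 4 * (X + 16) : Kbar[X]) := by
    have h := jF_mul_u4F
    simp only [map_pow, map_add, map_mul, aeval_X, map_ofNat]
    linear_combination -h
  have hfin := Fermat.Agent.S30.E2.HauptGen.finrank_eq_mul (transcendental_jF 4) hAmon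
    (by rw [hAdeg, hBdeg]; norm_num) hcop (u4F 4 (dvd_refl 4)) hrel
  rw [finrank_jF 4, dedekindPsi_four, hAdeg] at hfin
  rw [← IntermediateField.finrank_eq_one_iff_eq_top]
  omega

end Gen

/-! ### The modular equation of `u₄` -/

section Final

variable (q : ℕ) [NeZero q]

/-- The identity `Φ(U, Y) = 0` in `ℤ((q))` holds over every commutative ring. -/
theorem bivEval_coeffMap (K : Type*) [CommRing K] {Φ : ℤ[X][X]} {U Y : LaurentSeries ℤ}
    (h : bivEval Φ U Y = 0) :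
    bivEval Φ (coeffMap (Int.castRingHom K) U) (coeffMap (Int.castRingHom K) Y) = 0 := by
  rw [← map_bivEval, h, map_zero]

/-- **The modular equation of `u₄` for an odd prime `q`**: there are `Φ, Φ' ∈ ℤ[X][Y]`, monic in
`Y`, with `Φ(u₄(q), u₄(q^q)) = 0` and `Φ'(u₄(q^q), u₄(q)) = 0` in `ℤ((q))`. -/
theorem exists_modPoly_u4 (hq : q.Prime) (hq2 : q ≠ 2) :
    ∃ Φ Φ' : ℤ[X][X], Φ.Monic ∧ Φ'.Monic ∧
      bivEval Φ (u4 ℤ) (qExpand ℤ q (u4 ℤ)) = 0 ∧
      bivEval Φ' (qExpand ℤ q (u4 ℤ)) (u4 ℤ) = 0 := by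
  have hq4 : ¬ q ∣ 4 := by
    intro h
    have h4 : (4 : ℕ) = 2 ^ 2 := by norm_num
    rw [h4] at h
    exact hq2 ((Nat.prime_dvd_prime_iff_eq hq Nat.prime_two).1 (hq.dvd_of_dvd_pow h))
  have hP : PoleLE 1 ((u4F 4 (dvd_refl 4) : FN 4) : LaurentSeries Kbar) :=
    fun n hn => coeff_u4_of_lt Kbar hn
  have hT : ((u4F 4 (dvd_refl 4) : FN 4) : LaurentSeries Kbar).coeff (-1) = 1 :=
    coeff_u4_neg_one Kbar
  have hA : ∀ ζ : Kbar, ζ ^ q = 1 → ζ ∈ (integralClosure ℤ Kbar).toSubring := by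
    intro ζ hζ
    show IsIntegral ℤ ζ
    exact IsIntegral.of_pow hq.pos (by rw [hζ]; exact isIntegral_one)
  have hhA : ((u4F 4 (dvd_refl 4) : FN 4) : LaurentSeries Kbar)
      ∈ coeffSubring (integralClosure ℤ Kbar).toSubring := by
    intro n
    rw [coe_u4F, ← coeffMap_u4 (Int.castRingHom Kbar), coeffMap_coeff, eq_intCast]
    exact intCast_mem _ _
  obtain ⟨Ψ, hΨ, hcoef, h1, h2⟩ := exists_modPoly_symm 4 q hq hq4 (u4F 4 (dvd_refl 4))
    adjoin_u4F_eq_top hP hT (integralClosure ℤ Kbar).toSubring hA hhA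
  have e1 : ((heckeAlphaBar Kbar 4 q (u4F 4 (dvd_refl 4)) : FN (4 * q)) : LaurentSeries Kbar)
      = coeffMap (Int.castRingHom Kbar) (u4 ℤ) := by
    rw [coe_heckeAlphaBar, coe_u4F, coeffMap_u4]
  have e2 : ((heckeBetaBar Kbar 4 q (u4F 4 (dvd_refl 4)) : FN (4 * q)) : LaurentSeries Kbar)
      = coeffMap (Int.castRingHom Kbar) (qExpand ℤ q (u4 ℤ)) := by
    rw [coe_heckeBetaBar, coe_u4F, coeffMap_qExpand_int, coeffMap_u4]
  have h1' : eval₂ (aeval (coeffMap (Int.castRingHom Kbar) (u4 ℤ)) :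
      Kbar[X] →ₐ[Kbar] LaurentSeries Kbar).toRingHom
      (coeffMap (Int.castRingHom Kbar) (qExpand ℤ q (u4 ℤ))) Ψ = 0 := by
    rw [← e1, ← e2, ← coe_eval₂_aeval, h1]
    rfl
  have h2' : eval₂ (aeval (coeffMap (Int.castRingHom Kbar) (qExpand ℤ q (u4 ℤ))) :
      Kbar[X] →ₐ[Kbar] LaurentSeries Kbar).toRingHom
      (coeffMap (Int.castRingHom Kbar) (u4 ℤ)) Ψ = 0 := by
    rw [← e1, ← e2, ← coe_eval₂_aeval, h2]
    rfl
  obtain ⟨Φ, hΦ, hΦ0⟩ := exists_int_poly (u4 ℤ) (qExpand ℤ q (u4 ℤ)) Ψ hΨ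
    (fun k i => hcoef k i) h1'
  obtain ⟨Φ', hΦ', hΦ0'⟩ := exists_int_poly (qExpand ℤ q (u4 ℤ)) (u4 ℤ) Ψ hΨ
    (fun k i => hcoef k i) h2'
  exact ⟨Φ, Φ', hΦ, hΦ', hΦ0, hΦ0'⟩

/-- **Transport form (`hwu`).**  Let `σ : F → K((q))` be an injective ring homomorphism and
`u, y ∈ F` with `σ u = u₄`, `σ y = u₄(q^q)` (`q` an odd prime).  Then, for every base ring `O`
of `F`, `y` is integral over `O[u]` and `u` is integral over `O[y]`. -/
theorem isIntegral_of_coe_u4 (hq : q.Prime) (hq2 : q ≠ 2) {O F K : Type*} [CommRing O]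
    [CommRing F] [CommRing K] [Algebra O F] (σ : F →+* LaurentSeries K)
    (hσ : Function.Injective σ) {u y : F} (hu : σ u = u4 K) (hy : σ y = qExpand K q (u4 K)) :
    IsIntegral (Algebra.adjoin O {u}) y ∧ IsIntegral (Algebra.adjoin O {y}) u := by
  obtain ⟨Φ, Φ', hΦ, hΦ', h1, h2⟩ := exists_modPoly_u4 q hq hq2
  have e1 : coeffMap (Int.castRingHom K) (u4 ℤ) = u4 K := coeffMap_u4 _
  have e2 : coeffMap (Int.castRingHom K) (qExpand ℤ q (u4 ℤ)) = qExpand K q (u4 K) := by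
    rw [coeffMap_qExpand_int, coeffMap_u4]
  constructor
  · refine isIntegral_adjoin_of_bivEval Φ hΦ (hσ ?_)
    rw [map_bivEval, hu, hy, map_zero, ← e2, ← e1]
    exact bivEval_coeffMap K h1
  · refine isIntegral_adjoin_of_bivEval Φ' hΦ' (hσ ?_)
    rw [map_bivEval, hu, hy, map_zero, ← e2, ← e1]
    exact bivEval_coeffMap K h2

/-- `u₄(q^q)` is integral over `O[u₄]` in `K((q))`, for every commutative ring `K`, every base
`O` and every odd prime `q`. -/
theorem isIntegral_qExpand_u4 (hq : q.Prime) (hq2 : q ≠ 2) {O K : Type*} [CommRing O]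
    [CommRing K] [Algebra O (LaurentSeries K)] :
    IsIntegral (Algebra.adjoin O {u4 K}) (qExpand K q (u4 K)) :=
  (isIntegral_of_coe_u4 q hq hq2 (RingHom.id (LaurentSeries K)) Function.injective_id rfl rfl).1

/-- `u₄` is integral over `O[u₄(q^q)]` in `K((q))`. -/
theorem isIntegral_u4_qExpand (hq : q.Prime) (hq2 : q ≠ 2) {O K : Type*} [CommRing O]
    [CommRing K] [Algebra O (LaurentSeries K)] :
    IsIntegral (Algebra.adjoin O {qExpand K q (u4 K)}) (u4 K) :=
  (isIntegral_of_coe_u4 q hq hq2 (RingHom.id (LaurentSeries K)) Function.injective_id rfl rfl).2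

/-! ### The literal `hwu` shapes in `L_E` -/

variable (M : ℕ) [NeZero M] (E : IntermediateField ℚ (AlgebraicClosure ℚ))

/-- **`hwu` for `u₄`**: `β u₄ = u₄(q^q)` is integral over `O[α u₄]` in the function field of
level `M q` over `E` (`4 ∣ M`, `q` an odd prime; no condition on `q` and `M`). -/
theorem isIntegral_beta_u4E (hq : q.Prime) (hq2 : q ≠ 2) (h4 : 4 ∣ M) {O : Type*} [CommRing O]
    [Algebra O ↥(laurentBaseChange E (modularFunctionFieldFull (M * q)))] :
    IsIntegral (Algebra.adjoin O {heckeAlphaBar E M q (u4E M E h4)})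
      (heckeBetaBar E M q (u4E M E h4)) :=
  (isIntegral_of_coe_u4 q hq hq2
    (laurentBaseChange E (modularFunctionFieldFull (M * q))).val.toRingHom
    Subtype.val_injective (u := heckeAlphaBar E M q (u4E M E h4))
    (y := heckeBetaBar E M q (u4E M E h4)) rfl rfl).1

/-- `α u₄ = u₄(q)` is integral over `O[β u₄]`. -/
theorem isIntegral_alpha_u4E (hq : q.Prime) (hq2 : q ≠ 2) (h4 : 4 ∣ M) {O : Type*} [CommRing O]
    [Algebra O ↥(laurentBaseChange E (modularFunctionFieldFull (M * q)))] :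
    IsIntegral (Algebra.adjoin O {heckeBetaBar E M q (u4E M E h4)})
      (heckeAlphaBar E M q (u4E M E h4)) :=
  (isIntegral_of_coe_u4 q hq hq2
    (laurentBaseChange E (modularFunctionFieldFull (M * q))).val.toRingHom
    Subtype.val_injective (u := heckeAlphaBar E M q (u4E M E h4))
    (y := heckeBetaBar E M q (u4E M E h4)) rfl rfl).2

end Final

end Fermat.Agent.S36.ModEqGen
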